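import Fermat.Agent.ArtinClassNumber.Roots

/-!
# The number of reduced pairs

The number of square roots of `D` modulo `a` is the convolution of the divisor sum of the symbol
with the Moebius function of the squares, so its sums over the degrees come from the L-function.
-/

set_option autoImplicit false
set_option linter.style.openClassical false
set_option linter.style.haveILetI false
set_option linter.unusedSectionVars false

noncomputable section

open scoped Classical

namespace FA.ArtinClassNumber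

open Polynomial KurlbergRudnick QuadraticLFF

variable {k : Type*} [Field k] [Fintype k] {D : k[X]}

/-- The monic divisors. -/
def divs (h : k[X]) : Finset k[X] := (upTo k h.natDegree).filter (· ∣ h)

/-- The monic polynomials with square dividing `a`. -/
def sqDivs (a : k[X]) : Finset k[X] := (upTo k a.natDegree).filter fun e => e ^ 2 ∣ a

/-- The divisor sum of the symbol. -/
def divSum (D h : k[X]) : ℤ := ∑ f ∈ divs h, symbol f D

/-- The convolution. -/
def conv (D a : k[X]) : ℤ := ∑ e ∈ sqDivs a, moe e * divSum D (a /ₘ e ^ 2)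

theorem mem_divs {h f : k[X]} (hh : h.Monic) : f ∈ divs h ↔ f.Monic ∧ f ∣ h := by
  rw [divs, Finset.mem_filter, mem_upTo]
  exact ⟨fun hf => ⟨hf.1.1, hf.2⟩,
    fun hf => ⟨⟨hf.1, natDegree_le_of_dvd hf.2 hh.ne_zero⟩, hf.2⟩⟩

theorem mem_sqDivs {a e : k[X]} (ha : a.Monic) : e ∈ sqDivs a ↔ e.Monic ∧ e ^ 2 ∣ a := by
  rw [sqDivs, Finset.mem_filter, mem_upTo]
  exact ⟨fun hf => ⟨hf.1.1, hf.2⟩, fun hf => ⟨⟨hf.1,
    natDegree_le_of_dvd ((dvd_pow_self e two_ne_zero).trans hf.2) ha.ne_zero⟩, hf.2⟩⟩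

theorem symbol_mul_left {f g : k[X]} (hf : f.Monic) (hg : g.Monic) (D : k[X]) :
    symbol (f * g) D = symbol f D * symbol g D := by
  rw [symbol, symbol, symbol, res_mul_left hf hg, map_mul]

theorem symbol_eq_zero {P : k[X]} (hm : P.Monic) (hP : Irreducible P) (h : P ∣ D) :
    symbol P D = 0 := by
  rw [symbol, not_not.mp (mt (res_ne_zero_iff hm).mp
    fun hc => hP.not_isUnit (hc.isUnit_of_dvd' dvd_rfl h)), quadraticChar_zero]

/-- The sum of the powers of the symbol. -/
def geom (D P : k[X]) (j : ℕ) : ℤ := ∑ i ∈ Finset.range (j + 1), symbol P D ^ i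

variable {P b : k[X]} (hm : P.Monic) (hP : Irreducible P) (hb : b.Monic) (hPb : ¬ P ∣ b)
include hm hP hb hPb

theorem divSum_pow_succ (j : ℕ) :
    divSum D (P ^ (j + 1) * b) = divSum D b + symbol P D * divSum D (P ^ j * b) := by
  have hM := (hm.pow (j + 1)).mul hb
  have hM' := (hm.pow j).mul hb
  rw [divSum, ← Finset.sum_filter_not_add_sum_filter _ (P ∣ ·)]
  refine congrArg₂ (· + ·) (Finset.sum_congr (Finset.ext fun f => ?_) fun _ _ => rfl) ?_
  · rw [Finset.mem_filter, mem_divs hM, mem_divs hb]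
    constructor
    · rintro ⟨⟨hf, hd⟩, hn⟩
      exact ⟨hf, (hP.coprime_iff_not_dvd.mpr hn).pow_left.symm.dvd_of_dvd_mul_left hd⟩
    · rintro ⟨hf, hd⟩
      exact ⟨⟨hf, hd.trans (dvd_mul_left b _)⟩, fun h => hPb (h.trans hd)⟩
  rw [divSum, Finset.mul_sum]
  have himg : (divs (P ^ (j + 1) * b)).filter (P ∣ ·) = (divs (P ^ j * b)).image (P * ·) := by
    ext f
    rw [Finset.mem_filter, mem_divs hM, Finset.mem_image]
    constructor
    · rintro ⟨⟨hf, hd⟩, c, rfl⟩
      rw [pow_succ', mul_assoc, mul_dvd_mul_iff_left hP.ne_zero] at hd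
      exact ⟨c, (mem_divs hM').mpr ⟨hm.of_mul_monic_left hf, hd⟩, rfl⟩
    · rintro ⟨c, hc, rfl⟩
      obtain ⟨hc, hd⟩ := (mem_divs hM').mp hc
      refine ⟨⟨hm.mul hc, ?_⟩, dvd_mul_right P c⟩
      rw [pow_succ', mul_assoc]
      exact mul_dvd_mul_left P hd
  rw [himg, Finset.sum_image fun x _ y _ h => mul_left_cancel₀ hP.ne_zero h]
  exact Finset.sum_congr rfl fun c hc => symbol_mul_left hm ((mem_divs hM').mp hc).1 D

theorem divSum_pow_mul (j : ℕ) : divSum D (P ^ j * b) = geom D P j * divSum D b := by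
  induction j with
  | zero => simp [geom]
  | succ j ih =>
    rw [divSum_pow_succ hm hP hb hPb, ih, geom, geom, Finset.sum_range_succ' _ (j + 1)]
    simp only [pow_succ', ← Finset.mul_sum, pow_zero]
    ring

theorem conv_pow_mul (j : ℕ) :
    conv D (P ^ j * b) =
      (geom D P j - if 2 ≤ j then geom D P (j - 2) else 0) * conv D b := by
  have hM := (hm.pow j).mul hb
  have hquot : ∀ e ∈ sqDivs b, ∃ c : k[X], c.Monic ∧ ¬ P ∣ c ∧ b = e ^ 2 * c ∧ b /ₘ e ^ 2 = c :=
    fun e he => by
      obtain ⟨hem, c, hc⟩ := (mem_sqDivs hb).mp he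
      exact ⟨c, (hem.pow 2).of_mul_monic_left (hc ▸ hb),
        fun h => hPb (hc ▸ h.mul_left _), hc, by rw [hc, mul_divByMonic_cancel_left _ (hem.pow 2)]⟩
  have hnP : ∀ e ∈ sqDivs b, ¬ P ∣ e := fun e he h =>
    hPb ((h.trans (dvd_pow_self e two_ne_zero)).trans ((mem_sqDivs hb).mp he).2)
  rw [conv, ← Finset.sum_filter_not_add_sum_filter _ (P ∣ ·), sub_mul]
  have h1 : ∑ e ∈ (sqDivs (P ^ j * b)).filter (fun e => ¬ P ∣ e),
      moe e * divSum D ((P ^ j * b) /ₘ e ^ 2) = geom D P j * conv D b := by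
    rw [conv, Finset.mul_sum]
    refine Finset.sum_congr (Finset.ext fun e => ?_) fun e he => ?_
    · rw [Finset.mem_filter, mem_sqDivs hM, mem_sqDivs hb]
      constructor
      · rintro ⟨⟨he, hd⟩, hn⟩
        exact ⟨he, (hP.coprime_iff_not_dvd.mpr hn).pow.symm.dvd_of_dvd_mul_left hd⟩
      · rintro ⟨he, hd⟩
        exact ⟨⟨he, hd.trans (dvd_mul_left b _)⟩, hnP e ((mem_sqDivs hb).mpr ⟨he, hd⟩)⟩
    · obtain ⟨c, hcm, hPc, hc, hq⟩ := hquot e he
      rw [hq, hc, ← mul_assoc, mul_comm (P ^ j), mul_assoc,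
        mul_divByMonic_cancel_left _ ((((mem_sqDivs hb).mp he).1).pow 2),
        divSum_pow_mul hm hP hcm hPc]
      ring
  rw [h1, sub_eq_add_neg]
  refine congrArg _ ?_
  split_ifs with hj
  · obtain ⟨i, rfl⟩ : ∃ i, j = i + 2 := ⟨j - 2, by omega⟩
    rw [Nat.add_sub_cancel, conv, Finset.mul_sum, ← Finset.sum_neg_distrib]
    have hsub : (sqDivs b).image (P * ·) ⊆ (sqDivs (P ^ (i + 2) * b)).filter (P ∣ ·) := by
      intro f hf
      obtain ⟨e, he, rfl⟩ := Finset.mem_image.mp hf
      obtain ⟨hem, hd⟩ := (mem_sqDivs hb).mp he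
      refine Finset.mem_filter.mpr ⟨(mem_sqDivs hM).mpr ⟨hm.mul hem, ?_⟩, dvd_mul_right P e⟩
      rw [mul_pow]
      exact mul_dvd_mul (pow_dvd_pow P (by omega)) hd
    rw [← Finset.sum_subset hsub fun f hf hn => ?_,
      Finset.sum_image fun x _ y _ h => mul_left_cancel₀ hP.ne_zero h]
    · refine Finset.sum_congr rfl fun e he => ?_
      obtain ⟨c, hcm, hPc, hc, hq⟩ := hquot e he
      rw [hq, moe_irreducible_mul hP (hnP e he),
        show P ^ (i + 2) * b = (P * e) ^ 2 * (P ^ i * c) by rw [hc]; ring,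
        mul_divByMonic_cancel_left _ ((hm.mul ((mem_sqDivs hb).mp he).1).pow 2),
        divSum_pow_mul hm hP hcm hPc]
      ring
    · obtain ⟨hf', c, rfl⟩ := Finset.mem_filter.mp hf
      obtain ⟨hfm, hd⟩ := (mem_sqDivs hM).mp hf'
      by_cases hc : P ∣ c
      · rw [moe_mul_of_dvd hP hc, zero_mul]
      · refine absurd (Finset.mem_image.mpr ⟨c, (mem_sqDivs hb).mpr
          ⟨hm.of_mul_monic_left hfm, (hP.coprime_iff_not_dvd.mpr hc).pow.symm.dvd_of_dvd_mul_left
            ((pow_dvd_pow_of_dvd (dvd_mul_left c P) 2).trans hd)⟩, rfl⟩) hn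
  · rw [zero_mul, neg_zero]
    refine Finset.sum_eq_zero fun f hf => ?_
    obtain ⟨hf', hPf⟩ := Finset.mem_filter.mp hf
    have h : P * P ^ 1 ∣ P ^ j * b := by
      rw [pow_one, ← pow_two]
      exact (pow_dvd_pow_of_dvd hPf 2).trans ((mem_sqDivs hM).mp hf').2
    refine absurd ?_ hPb
    rcases (show j = 0 ∨ j = 1 by omega) with rfl | rfl
    · rw [pow_zero, one_mul] at h
      exact (dvd_mul_right P _).trans h
    · rw [pow_one, mul_dvd_mul_iff_left hP.ne_zero] at h
      exact h

omit hm hP hb hPb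

/-- **The local factor.** -/
theorem rootNum_pow (hk : ringChar k ≠ 2) (hsq : Squarefree D) (hm : P.Monic)
    (hP : Irreducible P) {j : ℕ} (hj : 1 ≤ j) :
    (rootNum D (P ^ j) : ℤ) = geom D P j - if 2 ≤ j then geom D P (j - 2) else 0 := by
  by_cases hPD : P ∣ D
  · have hg : ∀ i, geom D P i = 1 := fun i => by
      rw [geom, symbol_eq_zero hm hP hPD,
        Finset.sum_eq_single_of_mem 0 (by simp) fun x _ hx => zero_pow hx, pow_zero]
    rw [rootNum_ramified hm hP hsq hPD hj, hg, hg]
    rcases (show j = 1 ∨ 2 ≤ j by omega) with rfl | h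
    · simp
    · rw [if_neg (by omega), if_pos h]
      simp
  have hρ : (rootNum D (P ^ j) : ℤ) = 1 + symbol P D := by
    induction j, hj using Nat.le_induction with
    | base => rw [pow_one, rootNum_irreducible hk hm hP hPD]
    | succ j hj ih => rw [rootNum_pow_succ hk hm hP hPD hj, ih]
  rw [hρ]
  have hχ : symbol P D = 1 ∨ symbol P D = -1 :=
    quadraticChar_dichotomy ((res_ne_zero_iff hm).mpr (hP.coprime_iff_not_dvd.mpr hPD))
  rcases (show j = 1 ∨ 2 ≤ j by omega) with rfl | h
  · simp [geom, Finset.sum_range_succ]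
  obtain ⟨i, rfl⟩ : ∃ i, j = i + 2 := ⟨j - 2, by omega⟩
  rw [if_pos h, Nat.add_sub_cancel, geom, geom, Finset.sum_range_succ _ (i + 2),
    Finset.sum_range_succ _ (i + 1)]
  rcases hχ with e | e <;> rw [e]
  · simp only [one_pow]
    ring
  · rw [pow_succ (-1 : ℤ) (i + 1)]
    ring

/-- **The square roots are the convolution.** -/
theorem rootNum_eq_conv (hk : ringChar k ≠ 2) (hsq : Squarefree D) {a : k[X]} (ha : a.Monic) :
    (rootNum D a : ℤ) = conv D a := by
  induction hn : a.natDegree using Nat.strong_induction_on generalizing a with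
  | _ n ih =>
    rcases Nat.eq_zero_or_pos n with rfl | hpos
    · have hone : upTo k 0 = {(1 : k[X])} := by
        ext f
        rw [mem_upTo, Finset.mem_singleton]
        exact ⟨fun h => h.1.natDegree_eq_zero.mp (by omega), fun h => h ▸ ⟨monic_one, by simp⟩⟩
      rw [ha.natDegree_eq_zero.mp hn, rootNum_one, conv, sqDivs, natDegree_one, hone,
        Finset.filter_true_of_mem fun f hf => by simp [Finset.mem_singleton.mp hf],
        Finset.sum_singleton, moe_one, one_pow, divByMonic_one, divSum, divs, natDegree_one, hone,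
        Finset.filter_true_of_mem fun f hf => by simp [Finset.mem_singleton.mp hf],
        Finset.sum_singleton, symbol_one_left]
      rfl
    obtain ⟨P', hP', hPa'⟩ := Polynomial.exists_irreducible_of_natDegree_ne_zero (f := a)
      (by omega)
    have hm := monic_normalize hP'.ne_zero
    have hP : Irreducible (normalize P') := (normalize_associated P').symm.irreducible hP'
    have hPa : normalize P' ∣ a := normalize_dvd_iff.mpr hPa'
    generalize normalize P' = P at hm hP hPa
    obtain ⟨j, b, hPb, rfl⟩ := WfDvdMonoid.max_power_factor ha.ne_zero hP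
    have hb : b.Monic := (hm.pow j).of_mul_monic_left ha
    have hj : 1 ≤ j := by
      by_contra hj
      rw [show j = 0 by omega, pow_zero, one_mul] at hPa
      exact hPb hPa
    have hdeg := (hm.pow j).natDegree_mul hb
    rw [natDegree_pow] at hdeg
    have := Nat.mul_le_mul hj hP.natDegree_pos
    rw [rootNum_mul (hm.pow j) hb (hP.coprime_iff_not_dvd.mpr hPb).pow_left, Nat.cast_mul,
      rootNum_pow hk hsq hm hP hj, ih b.natDegree (by omega) hb rfl, conv_pow_mul hm hP hb hPb]

/-- The sum of the divisor sums in degree `i`. -/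
def divTotal (D : k[X]) (i : ℕ) : ℤ := ∑ h ∈ monicSet k i, divSum D h

theorem divTotal_eq (D : k[X]) (i : ℕ) :
    divTotal D i = ∑ j ∈ Finset.range (i + 1),
      (Fintype.card k : ℤ) ^ (i - j) * coeffL D j := by
  have h : ∀ h ∈ monicSet k i, divSum D h = ∑ f ∈ upTo k i, if f ∣ h then symbol f D else 0 :=
    fun h hh => by
      rw [divSum, divs, (mem_monicSet.mp hh).2, Finset.sum_filter]
  rw [divTotal, Finset.sum_congr rfl h, Finset.sum_comm, sum_upTo]
  refine Finset.sum_congr rfl fun j hj => ?_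
  rw [coeffL, Finset.mul_sum]
  refine Finset.sum_congr rfl fun f hf => ?_
  obtain ⟨hfm, hfd⟩ := mem_monicSet.mp hf
  rw [← Finset.sum_filter, sum_filter_dvd_monicSet hfm (by rw [hfd]; simp at hj; omega),
    Finset.sum_const, card_monicSet, hfd, nsmul_eq_mul, Nat.cast_pow]

theorem divTotal_succ (D : k[X]) (i : ℕ) :
    divTotal D (i + 1) = (Fintype.card k : ℤ) * divTotal D i + coeffL D (i + 1) := by
  rw [divTotal_eq, divTotal_eq, Finset.sum_range_succ, Nat.sub_self, pow_zero, one_mul,
    Finset.mul_sum]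
  refine congrArg (· + _) (Finset.sum_congr rfl fun j hj => ?_)
  rw [show i + 1 - j = i - j + 1 by simp at hj; omega, pow_succ]
  ring

theorem divTotal_zero (D : k[X]) : divTotal D 0 = 1 := by
  rw [divTotal_eq]
  simp [coeffL_zero]

/-- **The square roots in degree `n`.** -/
theorem sum_rootNum (hk : ringChar k ≠ 2) (hsq : Squarefree D) (n : ℕ) :
    ∑ a ∈ monicSet k n, (rootNum D a : ℤ) =
      divTotal D n - if 2 ≤ n then (Fintype.card k : ℤ) * divTotal D (n - 2) else 0 := by
  have h : ∀ a ∈ monicSet k n, (rootNum D a : ℤ) = ∑ e ∈ upTo k n,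
      if e ^ 2 ∣ a then moe e * divSum D (a /ₘ e ^ 2) else 0 := fun a ha => by
    rw [rootNum_eq_conv hk hsq (mem_monicSet.mp ha).1, conv, sqDivs, (mem_monicSet.mp ha).2,
      Finset.sum_filter]
  have hterm : ∀ t, ∑ e ∈ monicSet k t,
      ∑ a ∈ monicSet k n, (if e ^ 2 ∣ a then moe e * divSum D (a /ₘ e ^ 2) else 0) =
        (∑ e ∈ monicSet k t, moe e) * if 2 * t ≤ n then divTotal D (n - 2 * t) else 0 :=
    fun t => by
      rw [Finset.sum_mul]
      refine Finset.sum_congr rfl fun e he => ?_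
      obtain ⟨hem, hed⟩ := mem_monicSet.mp he
      have hd : (e ^ 2).natDegree = 2 * t := by rw [natDegree_pow, hed]
      rw [← Finset.sum_filter]
      split_ifs with ht
      · rw [sum_filter_dvd_monicSet (hem.pow 2) (hd.le.trans ht), hd, divTotal, Finset.mul_sum]
        exact Finset.sum_congr rfl fun B _ => by rw [mul_divByMonic_cancel_left _ (hem.pow 2)]
      · rw [mul_zero]
        refine Finset.sum_eq_zero fun a ha => absurd ?_ ht
        obtain ⟨ha, hdvd⟩ := Finset.mem_filter.mp ha
        have := natDegree_le_of_dvd hdvd (mem_monicSet.mp ha).1.ne_zero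
        rw [hd, (mem_monicSet.mp ha).2] at this
        exact this
  rw [Finset.sum_congr rfl h, Finset.sum_comm, sum_upTo, Finset.sum_congr rfl fun t _ => hterm t,
    Finset.sum_range_succ']
  rw [show ∑ e ∈ monicSet k 0, moe e = 1 by simp [monicSet_zero, moe_one]]
  rcases Nat.eq_zero_or_pos n with rfl | hn
  · simp [divTotal_zero]
  rw [Finset.sum_eq_single_of_mem 0 (by simpa using hn) fun t _ ht => by
    rw [sum_moe_monicSet, if_neg (by omega), if_neg (by omega), zero_mul]]
  rw [sum_moe_monicSet, zero_add, if_neg one_ne_zero, if_pos rfl]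
  simp only [Nat.mul_zero, Nat.zero_le, if_true, Nat.sub_zero, Nat.mul_one]
  split_ifs <;> ring

/-- **The number of reduced pairs.** -/
theorem sum_rootNum_upTo (hk : ringChar k ≠ 2) (hsq : Squarefree D) (g : ℕ) :
    ∑ a ∈ upTo k g, (rootNum D a : ℤ) = divTotal D g + ∑ i ∈ Finset.range g, coeffL D i := by
  rw [sum_upTo]
  induction g with
  | zero => simp [monicSet_zero, rootNum_one, divTotal_zero]
  | succ g ih =>
    rw [Finset.sum_range_succ _ (g + 1), ih, sum_rootNum hk hsq, Finset.sum_range_succ _ g]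
    rcases g with _ | g
    · simp [divTotal_zero, coeffL_zero]
      ring
    · rw [if_pos (by omega), show g + 1 + 1 - 2 = g by omega, divTotal_succ D g]
      ring

end FA.ArtinClassNumber
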