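import Fermat.Agent.QuadraticLFF.Sums

/-!
# Square roots of `D` modulo a polynomial

Their number is multiplicative; at `P ^ j` it is `1 + (D / P)` for `P` prime to `D` and `j ≥ 1`,
and at an irreducible factor of a squarefree `D` it is `1` for `j = 1` and `0` beyond.
-/

set_option autoImplicit false
set_option linter.style.openClassical false
set_option linter.style.haveILetI false
set_option linter.unusedSectionVars false

noncomputable section

open scoped Classical

namespace FA.ArtinClassNumber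

open Polynomial KurlbergRudnick QuadraticLFF

variable {k : Type*} [Field k] [Fintype k] {D : k[X]}

/-- The square roots of `D` modulo `a`. -/
def rootSet (D a : k[X]) : Finset k[X] :=
  (lowSet k a.natDegree).filter fun b => a ∣ b ^ 2 - D

/-- Their number. -/
def rootNum (D a : k[X]) : ℕ := (rootSet D a).card

theorem mem_rootSet {a b : k[X]} (ha : a.Monic) :
    b ∈ rootSet D a ↔ b.degree < a.degree ∧ a ∣ b ^ 2 - D := by
  rw [rootSet, Finset.mem_filter, mem_lowSet, degree_eq_natDegree ha.ne_zero]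

theorem modByMonic_mem_lowSet {a : k[X]} (ha : a.Monic) (r : k[X]) :
    r %ₘ a ∈ lowSet k a.natDegree :=
  mem_lowSet.mpr ((degree_modByMonic_lt r ha).trans_eq (degree_eq_natDegree ha.ne_zero))

theorem dvd_sub_modByMonic (a r : k[X]) : a ∣ r - r %ₘ a :=
  ⟨r /ₘ a, by linear_combination -modByMonic_add_div r a⟩

theorem eq_of_low {a r s : k[X]} (hr : r.degree < a.degree)
    (hs : s.degree < a.degree) (h : a ∣ r - s) : r = s :=
  sub_eq_zero.mp (eq_zero_of_dvd_of_degree_lt h ((degree_sub_le r s).trans_lt (max_lt hr hs)))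

theorem rootNum_one : rootNum D (1 : k[X]) = 1 := by
  rw [rootNum, rootSet, natDegree_one, Finset.filter_true_of_mem fun b _ => one_dvd _,
    card_lowSet, pow_zero]

theorem modByMonic_mem_rootSet {a M r : k[X]} (ha : a.Monic) (haM : a ∣ M)
    (h : M ∣ r ^ 2 - D) : r %ₘ a ∈ rootSet D a := by
  refine Finset.mem_filter.mpr ⟨modByMonic_mem_lowSet ha r, ?_⟩
  rw [show (r %ₘ a) ^ 2 - D = r ^ 2 - D - (r - r %ₘ a) * (r + r %ₘ a) by ring]
  exact dvd_sub (haM.trans h) ((dvd_sub_modByMonic a r).mul_right _)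

/-- **The Chinese remainder theorem.** -/
theorem rootNum_mul {a b : k[X]} (ha : a.Monic) (hb : b.Monic) (hc : IsCoprime a b) :
    rootNum D (a * b) = rootNum D a * rootNum D b := by
  rw [rootNum, rootNum, rootNum, ← Finset.card_product]
  refine Finset.card_bij (fun r _ => (r %ₘ a, r %ₘ b)) (fun r hr => ?_)
    (fun r hr s hs h => ?_) fun x hx => ?_
  · obtain ⟨-, h⟩ := (mem_rootSet (ha.mul hb)).mp hr
    exact Finset.mem_product.mpr ⟨modByMonic_mem_rootSet ha (dvd_mul_right a b) h,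
      modByMonic_mem_rootSet hb (dvd_mul_left b a) h⟩
  · obtain ⟨h1, h2⟩ := Prod.ext_iff.mp h
    have e : ∀ c : k[X], r %ₘ c = s %ₘ c → c ∣ r - s := fun c hcs => by
      have h := dvd_sub (dvd_sub_modByMonic c r) (dvd_sub_modByMonic c s)
      rwa [hcs, sub_sub_sub_cancel_right] at h
    exact eq_of_low ((mem_rootSet (ha.mul hb)).mp hr).1
      ((mem_rootSet (ha.mul hb)).mp hs).1 (hc.mul_dvd (e a h1) (e b h2))
  · obtain ⟨hx1, hx2⟩ := Finset.mem_product.mp hx
    obtain ⟨h1, h1'⟩ := (mem_rootSet ha).mp hx1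
    obtain ⟨h2, h2'⟩ := (mem_rootSet hb).mp hx2
    obtain ⟨u, v, huv⟩ := hc
    set r := (x.1 * (v * b) + x.2 * (u * a)) %ₘ (a * b)
    have hra : a ∣ r - x.1 := by
      have h := (dvd_mul_right a b).trans
        (dvd_sub_modByMonic (a * b) (x.1 * (v * b) + x.2 * (u * a)))
      rw [show r - x.1 = -(x.1 * (v * b) + x.2 * (u * a) - r) + (x.2 - x.1) * (u * a) by
        linear_combination x.1 * huv]
      exact dvd_add h.neg_right (((dvd_mul_left a u)).mul_left _)
    have hrb : b ∣ r - x.2 := by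
      have h := (dvd_mul_left b a).trans
        (dvd_sub_modByMonic (a * b) (x.1 * (v * b) + x.2 * (u * a)))
      rw [show r - x.2 = -(x.1 * (v * b) + x.2 * (u * a) - r) + (x.1 - x.2) * (v * b) by
        linear_combination x.2 * huv]
      exact dvd_add h.neg_right (((dvd_mul_left b v)).mul_left _)
    have e : ∀ (c y : k[X]), c.Monic → y.degree < c.degree → c ∣ r - y → r %ₘ c = y :=
      fun c y hcm hy hd => eq_of_low (degree_modByMonic_lt r hcm) hy (by
        have h := dvd_sub hd (dvd_sub_modByMonic c r)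
        rwa [sub_sub_sub_cancel_left] at h)
    refine ⟨r, (mem_rootSet (ha.mul hb)).mpr ⟨degree_modByMonic_lt _ (ha.mul hb),
      IsCoprime.mul_dvd ⟨u, v, huv⟩ ?_ ?_⟩,
      Prod.ext (e a _ ha h1 hra) (e b _ hb h2 hrb)⟩
    · rw [show r ^ 2 - D = (r - x.1) * (r + x.1) + (x.1 ^ 2 - D) by ring]
      exact dvd_add (hra.mul_right _) h1'
    · rw [show r ^ 2 - D = (r - x.2) * (r + x.2) + (x.2 ^ 2 - D) by ring]
      exact dvd_add (hrb.mul_right _) h2'

variable {P : k[X]}

/-- **Hensel's lemma.** -/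
theorem rootNum_pow_succ (hk : ringChar k ≠ 2) (hm : P.Monic) (hP : Irreducible P)
    (hPD : ¬ P ∣ D) {j : ℕ} (hj : 1 ≤ j) :
    rootNum D (P ^ (j + 1)) = rootNum D (P ^ j) := by
  have h2 : IsUnit (2 : k[X]) := by
    rw [← C_ofNat, isUnit_C]
    exact (Ring.two_ne_zero hk).isUnit
  have hjP : P ∣ P ^ j := dvd_pow_self P (by omega)
  have hnd : ∀ b : k[X], P ^ j ∣ b ^ 2 - D → ¬ P ∣ 2 * b := fun b hb hd => hPD (by
    have hPb : P ∣ b := h2.dvd_mul_left.mp hd
    have h := dvd_sub (hPb.mul_right b) (hjP.trans hb)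
    rwa [show b * b - (b ^ 2 - D) = D by ring] at h)
  refine Finset.card_bij (fun r _ => r %ₘ P ^ j) (fun r hr => ?_) (fun r hr s hs h => ?_)
    fun b hb => ?_
  · exact modByMonic_mem_rootSet (hm.pow j) (pow_dvd_pow P (by omega))
      ((mem_rootSet (hm.pow _)).mp hr).2
  · obtain ⟨hr1, hr2⟩ := (mem_rootSet (hm.pow _)).mp hr
    obtain ⟨hs1, hs2⟩ := (mem_rootSet (hm.pow _)).mp hs
    have hd : P ^ j ∣ r - s := by
      have h' := dvd_sub (dvd_sub_modByMonic (P ^ j) r) (dvd_sub_modByMonic (P ^ j) s)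
      rwa [show r %ₘ P ^ j = s %ₘ P ^ j from h, sub_sub_sub_cancel_right] at h'
    have hsum : ¬ P ∣ r + s := fun hd' => hnd r ((pow_dvd_pow P (by omega)).trans hr2) (by
      have := dvd_add hd' (hjP.trans hd)
      rwa [show r + s + (r - s) = 2 * r by ring] at this)
    refine eq_of_low hr1 hs1
      ((hP.coprime_iff_not_dvd.mpr hsum).pow_left.dvd_of_dvd_mul_right ?_)
    rw [show (r - s) * (r + s) = (r ^ 2 - D) - (s ^ 2 - D) by ring]
    exact dvd_sub hr2 hs2
  · obtain ⟨hb1, c, hc⟩ := (mem_rootSet (hm.pow j)).mp hb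
    obtain ⟨u, v, huv⟩ := hP.coprime_iff_not_dvd.mpr (hnd b ⟨c, hc⟩)
    set r0 := b - v * c * P ^ j with hr0
    have hroot : P ^ (j + 1) ∣ r0 ^ 2 - D := by
      obtain ⟨i, rfl⟩ : ∃ i, j = i + 1 := ⟨j - 1, by omega⟩
      refine ⟨u * c + v ^ 2 * c ^ 2 * P ^ i, ?_⟩
      rw [hr0]
      linear_combination hc - c * P ^ (i + 1) * huv
    refine ⟨r0 %ₘ P ^ (j + 1), modByMonic_mem_rootSet (hm.pow _) dvd_rfl hroot, ?_⟩
    refine eq_of_low (degree_modByMonic_lt _ (hm.pow j)) hb1 ?_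
    have h1 := dvd_sub_modByMonic (P ^ j) (r0 %ₘ P ^ (j + 1))
    have h2' := (pow_dvd_pow P (Nat.le_succ j)).trans (dvd_sub_modByMonic (P ^ (j + 1)) r0)
    have h3 : P ^ j ∣ r0 - b := ⟨-(v * c), by rw [hr0]; ring⟩
    have h := dvd_sub (dvd_sub h3 h2') h1
    rwa [show r0 - b - (r0 - r0 %ₘ P ^ (j + 1)) -
        (r0 %ₘ P ^ (j + 1) - r0 %ₘ P ^ (j + 1) %ₘ P ^ j) =
      r0 %ₘ P ^ (j + 1) %ₘ P ^ j - b by ring] at h

/-- **Modulo an irreducible.** -/
theorem rootNum_irreducible (hk : ringChar k ≠ 2) (hm : P.Monic) (hP : Irreducible P)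
    (hPD : ¬ P ∣ D) : (rootNum D P : ℤ) = 1 + symbol P D := by
  haveI := Fact.mk hP
  haveI : Module.Finite k (AdjoinRoot P) := hm.finite_adjoinRoot
  haveI : Finite (AdjoinRoot P) := Module.finite_of_finite k
  haveI := Fintype.ofFinite (AdjoinRoot P)
  have hL : ringChar (AdjoinRoot P) ≠ 2 := by rwa [← Algebra.ringChar_eq k (AdjoinRoot P)]
  set x := AdjoinRoot.mk P D
  have hx : x ≠ 0 := fun e => hPD (AdjoinRoot.mk_eq_zero.mp e)
  have hcard : rootNum D P = (Finset.univ.filter fun y : AdjoinRoot P => y ^ 2 = x).card := by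
    refine Finset.card_bij (fun b _ => AdjoinRoot.mk P b) (fun b hb => ?_) (fun b hb c hc h => ?_)
      fun y hy => ?_
    · rw [Finset.mem_filter, ← map_pow, AdjoinRoot.mk_eq_mk]
      exact ⟨Finset.mem_univ _, ((mem_rootSet hm).mp hb).2⟩
    · exact eq_of_low ((mem_rootSet hm).mp hb).1 ((mem_rootSet hm).mp hc).1
        (AdjoinRoot.mk_eq_mk.mp h)
    · obtain ⟨r, rfl⟩ := AdjoinRoot.mk_surjective y
      have hr : P ∣ r ^ 2 - D := AdjoinRoot.mk_eq_mk.mp (by
        rw [map_pow]; exact (Finset.mem_filter.mp hy).2)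
      exact ⟨r %ₘ P, modByMonic_mem_rootSet hm dvd_rfl hr,
        (AdjoinRoot.mk_eq_mk.mpr (dvd_sub_modByMonic P r)).symm⟩
  have h := quadraticChar_card_sqrts hL x
  rw [Set.toFinset_ofPred, ← hcard] at h
  rw [h, add_comm]
  congr 1
  obtain ⟨hs1, hs2⟩ := symbol_irreducible hk hm hP hPD
  by_cases hs : IsSquare x
  · rw [hs1.mpr hs, (quadraticChar_one_iff_isSquare hx).mpr hs]
  · rw [hs2.mpr hs, quadraticChar_neg_one_iff_not_isSquare.mpr hs]

theorem rootNum_ramified (hm : P.Monic) (hP : Irreducible P) (hsq : Squarefree D)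
    (hPD : P ∣ D) {j : ℕ} (hj : 1 ≤ j) :
    rootNum D (P ^ j) = if j = 1 then 1 else 0 := by
  have hPb : ∀ b : k[X], P ^ j ∣ b ^ 2 - D → P ∣ b := fun b hb =>
    hP.prime.dvd_of_dvd_pow (n := 2) (by
      have h := dvd_add ((dvd_pow_self P (by omega : j ≠ 0)).trans hb) hPD
      rwa [sub_add_cancel] at h)
  split_ifs with h1
  · subst h1
    rw [pow_one, rootNum, Finset.card_eq_one]
    refine ⟨0, Finset.eq_singleton_iff_unique_mem.mpr ⟨(mem_rootSet hm).mpr
      ⟨by rw [degree_zero, degree_eq_natDegree hm.ne_zero]; exact WithBot.bot_lt_coe _, by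
        simpa using hPD⟩, fun b hb => ?_⟩⟩
    obtain ⟨hb1, hb2⟩ := (mem_rootSet hm).mp hb
    exact eq_zero_of_dvd_of_degree_lt (hPb b (by rwa [pow_one])) hb1
  · rw [rootNum, Finset.card_eq_zero, Finset.eq_empty_iff_forall_notMem]
    intro b hb
    obtain ⟨-, hb2⟩ := (mem_rootSet (hm.pow j)).mp hb
    obtain ⟨c, rfl⟩ := hPb b hb2
    have h2 : P * P ∣ (P * c) ^ 2 - D :=
      Dvd.dvd.trans (by rw [← pow_two]; exact pow_dvd_pow P (by omega)) hb2
    have h3 := dvd_sub (⟨c ^ 2, by ring⟩ : P * P ∣ (P * c) ^ 2) h2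
    rw [sub_sub_cancel] at h3
    exact hP.not_isUnit (hsq P h3)

end FA.ArtinClassNumber
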